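import Fermat.Agent.S38T.IA.Hecke.Spec3
import Fermat.Agent.S31.Defs

/-!
# Row HARD, cell HECKE, leaves IA-NU / IA-ST: the POINT-LEVEL statements  (helper473)

`IANuStatement_T` and `IAStStatement_T` of layer 3 (`Hecke/Spec3.lean`, helper3) are statements on
the module `V / chiRelIA_T χ V`.  Here are their pointwise forms, in the same vocabulary:
a `p`-adic point `P : S31.PadicPoint p PQ.T` (complete DVR of characteristic `0`, finite residue
field of characteristic `p`), local, is **through the annihilator of `V / chiRelIA_T χ V`** if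
`P.χ t = 0` for every `t ∈ T_Q` with `a(t) V ⊆ chiRelIA_T χ V`.

* `IANuPtAt_T PQ V a` : for every pivot character `χ`, every local `p`-adic point through the
  annihilator of `V / chiRelIA_T χ V` is NOT unipotent on inertia at any pivot;
* `IAStPtAt_T PQ V a` : at every local `p`-adic point `P` through the annihilator of
  `V / chiRelIA_T 1 V`, `P.χ (tr ρ(Frob_q)² - (1+q)²) = 0` for every pivot `q`;
* `IANuPtStatement_T`, `IAStPtStatement_T` : the same binders as `IANuStatement_T`, `IAStStatement_T`.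

The glue (`PtGlue.lean`): `iaNu_of_pt_T : IAFreeStatement_T → IANuPtStatement_T → IANuStatement_T`,
`iaSt_of_pt_T : IAFreeStatement_T → IAStPtStatement_T → IAStStatement_T`.
-/

set_option autoImplicit false

open Polynomial IsLocalRing CongruenceSubgroup
open scoped MatrixGroups

namespace Fermat.Agent.S38.H473

variable {ty : Fermat.Agent.S59.Arch.PType}


open Fermat.Agent.S59.Arch Fermat.Agent.S59.TW.H959 Fermat.Agent.S59.TW Fermat.Agent.S59.H765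
open Fermat.Agent.S59.TW.H653 Fermat.Agent.S59.TW.Aut
open Fermat.Agent.S38.IA Fermat.Agent.S38.IA.Hecke
open CuspForm

section Parts

variable {p : ℕ}
  {𝒪 : Type} [CommRing 𝒪] [IsDomain 𝒪] [IsDiscreteValuationRing 𝒪]
  [IsAdicComplete (maximalIdeal 𝒪) 𝒪]
  {ρbar : ResidualGaloisRep (ResidueField 𝒪)} {Smin : Finset ℕ}
  {Piv : Finset ℕ} {k r : ℕ} {pv : Fin k → ℕ} {qv : Fin r → ℕ}
  [NeZero (wilesLevel p ty Smin (Smin ∪ Piv ∪ Finset.univ.image qv))]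

/-- The point `x` of `T_Q` is through the annihilator of `V / chiRelIA_T χ V`. -/
def ThroughAnn_T (PQ : HeckePkg p 𝒪 ρbar ty Smin (Smin ∪ Piv ∪ Finset.univ.image qv))
    (V : Submodule 𝒪 (XIA_T p ty Smin pv qv 𝒪)) (a : PQ.T →ₐ[𝒪] Module.End 𝒪 V)
    (χ : (∀ i : Fin k, (ZMod (pv i))ˣ) →* 𝒪) {R : Type} [CommRing R] (x : PQ.T →+* R) : Prop :=
  ∀ t : PQ.T, (∀ v : V, ((a t v : V) : XIA_T p ty Smin pv qv 𝒪) ∈ chiRelIA_T p ty Smin pv qv χ V) →
    x t = 0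

/-- **NU at `(V, a)`, pointwise**: every local `p`-adic point of `T_Q` through the annihilator
of `V / chiRelIA_T χ V` (`χ` a pivot character) is not unipotent on inertia at any pivot. -/
def IANuPtAt_T
    (PQ : HeckePkg p 𝒪 ρbar ty Smin (Smin ∪ Piv ∪ Finset.univ.image qv))
    (V : Submodule 𝒪 (XIA_T p ty Smin pv qv 𝒪)) (a : PQ.T →ₐ[𝒪] Module.End 𝒪 V) : Prop :=
  ∀ χ : (∀ i : Fin k, (ZMod (pv i))ˣ) →* 𝒪, IsPivChar p pv χ →
    ∀ (P : Fermat.Agent.S31.PadicPoint p PQ.T) (hP : IsLocalHom P.χ),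
      ThroughAnn_T PQ V a χ P.χ →
      ∀ q ∈ Piv, ¬ (PQ.H.ρ.baseChangeAlong P.χ hP).IsUnipotentOnInertiaAt q

/-- **ST at `(V, a)`, pointwise**: the Steinberg elements at the pivots vanish at every local
`p`-adic point of `T_Q` through the annihilator of `V / I_{Δ_Piv} V`. -/
def IAStPtAt_T
    (PQ : HeckePkg p 𝒪 ρbar ty Smin (Smin ∪ Piv ∪ Finset.univ.image qv))
    (V : Submodule 𝒪 (XIA_T p ty Smin pv qv 𝒪)) (a : PQ.T →ₐ[𝒪] Module.End 𝒪 V) : Prop :=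
  ∀ (P : Fermat.Agent.S31.PadicPoint p PQ.T), IsLocalHom P.χ →
    ThroughAnn_T PQ V a 1 P.χ →
    ∀ q ∈ Piv, ∀ Pl : ValuationSubring (AlgebraicClosure ℚ), Pl.LiesOverPrime q →
      ∀ φ : AlgebraicClosure ℚ ≃ₐ[ℚ] AlgebraicClosure ℚ, Pl.IsFrobeniusAt φ q →
        P.χ (PQ.H.ρ.trace φ ^ 2 - ((1 + q : ℕ) : PQ.T) ^ 2) = 0

end Parts

/-- **IA-NU, pointwise.**  Same binders as `IANuStatement_T`. -/
def IANuPtStatement_T : Prop :=
  ∀ (p : ℕ) [Fact p.Prime] (_hp5 : 3 ≤ p)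
    (𝒪 : Type) [CommRing 𝒪] [IsDomain 𝒪] [IsDiscreteValuationRing 𝒪]
    [IsAdicComplete (maximalIdeal 𝒪) 𝒪] [Finite (ResidueField 𝒪)] [CharZero 𝒪]
    (ρbar : ResidualGaloisRep (ResidueField 𝒪)) (Smin : Finset ℕ)
    (_h : ResidualHyp p 𝒪 ρbar Smin)
    (ty : PType) (_hflat : IsPTypeAt p ρbar ty)
    (Piv : Finset ℕ) (_hPiv : IsPivotSet p ρbar Smin Piv)
    (k : ℕ) (pv : Fin k → ℕ) (_hpv : Function.Injective pv)
    (_hpvPiv : Finset.univ.image pv = Piv)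
    (n r : ℕ) (qv : Fin r → ℕ) (_hq : IsTWSet p ρbar (Smin ∪ Piv) n qv)
    [NeZero (wilesLevel p ty Smin (Smin ∪ Piv ∪ Finset.univ.image qv))]
    (PQ : HeckePkg p 𝒪 ρbar ty Smin (Smin ∪ Piv ∪ Finset.univ.image qv))
    (α : Fin r → 𝒪) (_hα : IsFrobLift ρbar qv α)
    (V : Submodule 𝒪 (XIA_T p ty Smin pv qv 𝒪)) (h : ℕ) (a : PQ.T →ₐ[𝒪] Module.End 𝒪 V),
    IsIAPart_T PQ α V → IsHalf p pv h → IsHalf p qv h → IsIAAction_T PQ V h a → IANuPtAt_T PQ V a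

/-- **IA-ST, pointwise.**  Same binders as `IAStStatement_T`. -/
def IAStPtStatement_T : Prop :=
  ∀ (p : ℕ) [Fact p.Prime] (_hp5 : 3 ≤ p)
    (𝒪 : Type) [CommRing 𝒪] [IsDomain 𝒪] [IsDiscreteValuationRing 𝒪]
    [IsAdicComplete (maximalIdeal 𝒪) 𝒪] [Finite (ResidueField 𝒪)] [CharZero 𝒪]
    (ρbar : ResidualGaloisRep (ResidueField 𝒪)) (Smin : Finset ℕ)
    (_h : ResidualHyp p 𝒪 ρbar Smin)
    (ty : PType) (_hflat : IsPTypeAt p ρbar ty)
    (Piv : Finset ℕ) (_hPiv : IsPivotSet p ρbar Smin Piv)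
    (_hmin : ∀ q ∈ Piv, ∀ S : Finset ℕ,
      ¬ ResModular 𝒪 ρbar (ribetLevelT p ty Smin (Piv.erase q)) S)
    (k : ℕ) (pv : Fin k → ℕ) (_hpv : Function.Injective pv)
    (_hpvPiv : Finset.univ.image pv = Piv)
    (n r : ℕ) (qv : Fin r → ℕ) (_hq : IsTWSet p ρbar (Smin ∪ Piv) n qv)
    [NeZero (wilesLevel p ty Smin (Smin ∪ Piv ∪ Finset.univ.image qv))]
    (PQ : HeckePkg p 𝒪 ρbar ty Smin (Smin ∪ Piv ∪ Finset.univ.image qv))
    (α : Fin r → 𝒪) (_hα : IsFrobLift ρbar qv α)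
    (V : Submodule 𝒪 (XIA_T p ty Smin pv qv 𝒪)) (h : ℕ) (a : PQ.T →ₐ[𝒪] Module.End 𝒪 V),
    IsIAPart_T PQ α V → IsHalf p pv h → IsHalf p qv h → IsIAAction_T PQ V h a → IAStPtAt_T PQ V a

end Fermat.Agent.S38.H473
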