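import Fermat.Agent.S38.H473.KillT
import Fermat.Agent.S38T.H473.PtSpec

/-!
# Row S59 (B2), HECKE-T, leaves IA-NU / IA-ST: from points to the module, ANY type  (helper473)

The `ty`-generic twin of the glue of row HARD (`S38/H473/PtGlue.lean`), against the frozen
HECKE-T specs of helper3 (`S38T/IA/Hecke/Spec3.lean`, `S38T/H473/PtSpec.lean`):

* `iaNu_of_pt_T473 : IAFreeStatement_T → IANuPtStatement_T → IANuStatement_T`,
* `iaSt_of_pt_T473 : IAFreeStatement_T → IAStPtStatement_T → IAStStatement_T`   (VERBATIM).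

Proof: the generic KILL of `S38/H473/KillGen.lean`, `KillT.lean` (any type, any base level); the
objects `XIA_T`, `diaIA_T`, `chiRelIA_T`, `IAFreeAt_T`, `IANuPtAt_T`, ... of the frozen specs are
the generic objects `XG`, `diaG`, `chiRelG`, `FreeAtG`, `NuPtAtG`, ... at
`N₀ = wilesLevel p ty Smin Smin` by `rfl`.  No twin of `GlueB1/B2/B3` is needed.
-/

set_option autoImplicit false
set_option linter.unusedSectionVars false

open Polynomial IsLocalRing CongruenceSubgroup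
open scoped MatrixGroups

namespace Fermat.Agent.S38.H473.Gen

open Fermat.Agent.S59.Arch Fermat.Agent.S59.TW.H959 Fermat.Agent.S59.TW Fermat.Agent.S59.H765
open Fermat.Agent.S59.TW.H653 Fermat.Agent.S59.TW.Aut
open Fermat.Agent.S38.IA Fermat.Agent.S38.IA.Hecke
open Fermat.Agent.S38.H473
open CuspForm

section Rfl

variable (p : ℕ) (ty : PType) (Smin : Finset ℕ) {k r : ℕ} (pv : Fin k → ℕ) (qv : Fin r → ℕ)
  (𝒪 : Type) [CommRing 𝒪]

theorem diaIA_T_eq_diaG (a₁ : ∀ i : Fin k, (ZMod (pv i))ˣ) (a₂ : ∀ j : Fin r, (ZMod (qv j))ˣ)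
    (x : XIA_T p ty Smin pv qv 𝒪) :
    diaIA_T p ty Smin pv qv 𝒪 a₁ a₂ x = diaG p (wilesLevel p ty Smin Smin) pv qv 𝒪 a₁ a₂ x :=
  rfl

theorem chiRelIA_T_eq_chiRelG (χ : (∀ i : Fin k, (ZMod (pv i))ˣ) →* 𝒪)
    (V : Submodule 𝒪 (XIA_T p ty Smin pv qv 𝒪)) :
    chiRelIA_T p ty Smin pv qv χ V = chiRelG p (wilesLevel p ty Smin Smin) pv qv χ V := rfl

theorem iaFreeAt_T_iff_freeAtG (V : Submodule 𝒪 (XIA_T p ty Smin pv qv 𝒪)) (d : ℕ) :
    IAFreeAt_T V d ↔ FreeAtG p (wilesLevel p ty Smin Smin) pv qv V d := Iff.rfl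

end Rfl

/-- **IA-NU from its pointwise form, any type** (with IA-FREE). -/
theorem iaNu_of_pt_T473 (hFree : IAFreeStatement_T) (hPt : IANuPtStatement_T) :
    IANuStatement_T := by
  intro p hpF hp3 𝒪 _ _ _ _ _ _ ρbar Smin h ty hty Piv hPiv k pv hpv hpvPiv n r qv hq hNQ PQ α hα
    V hh a hV hhalf₁ hhalf₂ ha
  obtain ⟨d, hfree⟩ := hFree p hp3 𝒪 ρbar Smin h ty hty Piv hPiv k pv hpv hpvPiv
    n r qv hq PQ α hα V hV
  have hpt := hPt p hp3 𝒪 ρbar Smin h ty hty Piv hPiv k pv hpv hpvPiv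
    n r qv hq PQ α hα V hh a hV hhalf₁ hhalf₂ ha
  exact nuT_of_pt p 𝒪 ρbar Smin h ty Piv hPiv k pv hpv hpvPiv n r qv hq PQ
    (TsetOf PQ) (UsetOf qv α) V hh a hV ha d hfree hpt

/-- **IA-ST from its pointwise form, any type** (with IA-FREE). -/
theorem iaSt_of_pt_T473 (hFree : IAFreeStatement_T) (hPt : IAStPtStatement_T) :
    IAStStatement_T := by
  intro p hpF hp3 𝒪 _ _ _ _ _ _ ρbar Smin h ty hty Piv hPiv hmin k pv hpv hpvPiv n r qv hq hNQ
    PQ α hα V hh a hV hhalf₁ hhalf₂ ha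
  obtain ⟨d, hfree⟩ := hFree p hp3 𝒪 ρbar Smin h ty hty Piv hPiv k pv hpv hpvPiv
    n r qv hq PQ α hα V hV
  have hpt := hPt p hp3 𝒪 ρbar Smin h ty hty Piv hPiv hmin k pv hpv hpvPiv
    n r qv hq PQ α hα V hh a hV hhalf₁ hhalf₂ ha
  exact stT_of_pt p 𝒪 ρbar Smin h ty Piv hPiv k pv hpv hpvPiv n r qv hq PQ
    (TsetOf PQ) (UsetOf qv α) V hh a hV ha d hfree hpt

end Fermat.Agent.S38.H473.Gen
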