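import Fermat.Agent.S38T.H473.PtGlueGen
import Fermat.Agent.S38T.H953.NuPtSpec

/-!
# Row S59 (B2), HECKE-T, leaves IA-NU / IA-ST: adapter to the point-level Props of helper953,
# ANY type  (helper473)

The `ty`-generic twin of `S38/H473/PtAdapt.lean`, against the frozen HECKE-T specs of helper3
(`S38T/H953/NuPtSpec.lean`):

    iaNuPt_of_953_T473 : H953.IANuPtStatement953_T → IANuPtStatement_T
    iaStPt_of_953_T473 : H953.IAStPtStatement953_T → IAStPtStatement_T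
    iaNu_of_pt953_T473 : IAFreeStatement_T → H953.IANuPtStatement953_T → IANuStatement_T
    iaSt_of_pt953_T473 : IAFreeStatement_T → H953.IAStPtStatement953_T → IAStStatement_T.
-/

set_option autoImplicit false
set_option linter.style.haveILetI false
set_option linter.unusedSectionVars false

open Polynomial IsLocalRing CongruenceSubgroup
open scoped MatrixGroups

namespace Fermat.Agent.S38.H473.Gen

open Fermat.Agent.S59.Arch Fermat.Agent.S59.TW.H959 Fermat.Agent.S59.TW Fermat.Agent.S59.H765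
open Fermat.Agent.S59.TW.H653 Fermat.Agent.S59.TW.Aut
open Fermat.Agent.S38.IA Fermat.Agent.S38.IA.Hecke
open Fermat.Agent.S38.H473
open CuspForm

section At

variable {p : ℕ} {ty : PType}
  {𝒪 : Type} [CommRing 𝒪] [IsDomain 𝒪] [IsDiscreteValuationRing 𝒪]
  [IsAdicComplete (maximalIdeal 𝒪) 𝒪]
  {ρbar : ResidualGaloisRep (ResidueField 𝒪)} {Smin : Finset ℕ}
  {Piv : Finset ℕ} {k r : ℕ} {pv : Fin k → ℕ} {qv : Fin r → ℕ}
  [NeZero (wilesLevel p ty Smin (Smin ∪ Piv ∪ Finset.univ.image qv))]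
  {PQ : HeckePkg p 𝒪 ρbar ty Smin (Smin ∪ Piv ∪ Finset.univ.image qv)}
  {V : Submodule 𝒪 (XIA_T p ty Smin pv qv 𝒪)} {a : PQ.T →ₐ[𝒪] Module.End 𝒪 V}

theorem iaNuPtAt_of_953_T473 (h : Fermat.Agent.S38.H953.IANuPtAt953_T PQ V a) :
    IANuPtAt_T PQ V a := by
  intro χ hχ P hP hthrough
  letI : Algebra 𝒪 P.O := (P.χ.comp (algebraMap 𝒪 PQ.T)).toAlgebra
  let x : PQ.T →ₐ[𝒪] P.O := { P.χ with commutes' := fun _ => rfl }
  exact h χ hχ P.O x hP P.hp hthrough

theorem iaStPtAt_of_953_T473 (h : Fermat.Agent.S38.H953.IAStPtAt953_T PQ V a) :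
    IAStPtAt_T PQ V a := by
  intro P hP hthrough
  letI : Algebra 𝒪 P.O := (P.χ.comp (algebraMap 𝒪 PQ.T)).toAlgebra
  let x : PQ.T →ₐ[𝒪] P.O := { P.χ with commutes' := fun _ => rfl }
  exact h P.O x hP P.hp hthrough

end At

theorem iaNuPt_of_953_T473 (h : Fermat.Agent.S38.H953.IANuPtStatement953_T) :
    IANuPtStatement_T :=
  fun p _ hp3 𝒪 _ _ _ _ _ _ ρbar Smin hh ty hty Piv hPiv k pv hpv hpvPiv n r qv hq _ PQ α hα V
      h' a hV h₁ h₂ ha =>
    iaNuPtAt_of_953_T473 (h p hp3 𝒪 ρbar Smin hh ty hty Piv hPiv k pv hpv hpvPiv n r qv hq PQ α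
      hα V h' a hV h₁ h₂ ha)

theorem iaStPt_of_953_T473 (h : Fermat.Agent.S38.H953.IAStPtStatement953_T) :
    IAStPtStatement_T :=
  fun p _ hp3 𝒪 _ _ _ _ _ _ ρbar Smin hh ty hty Piv hPiv hmin k pv hpv hpvPiv n r qv hq _ PQ α
      hα V h' a hV h₁ h₂ ha =>
    iaStPtAt_of_953_T473 (h p hp3 𝒪 ρbar Smin hh ty hty Piv hPiv hmin k pv hpv hpvPiv n r qv hq
      PQ α hα V h' a hV h₁ h₂ ha)

/-- **IA-NU from the point-level Prop of helper953, any type.** -/
theorem iaNu_of_pt953_T473 (hFree : IAFreeStatement_T)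
    (hPt : Fermat.Agent.S38.H953.IANuPtStatement953_T) : IANuStatement_T :=
  iaNu_of_pt_T473 hFree (iaNuPt_of_953_T473 hPt)

/-- **IA-ST from the point-level Prop of helper953, any type.** -/
theorem iaSt_of_pt953_T473 (hFree : IAFreeStatement_T)
    (hPt : Fermat.Agent.S38.H953.IAStPtStatement953_T) : IAStStatement_T :=
  iaSt_of_pt_T473 hFree (iaStPt_of_953_T473 hPt)

end Fermat.Agent.S38.H473.Gen
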